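import Fermat.Agent.CMRayClass.Level
import Fermat.Agent.Root.SummaryArtinReciprocity
import Fermat.Agent.Tau.EuclideanFields

/-!
# The maximal abelian extension of an imaginary quadratic field, level by level

An algebraic number fixed by the commutators of the automorphisms fixing `√d` is fixed by the
automorphisms fixing `F`, `√d` and the abscissae of some level; the units of `ℚ(√d)` are `± 1`
unless `d` is `-1` or `-3`.
-/

set_option autoImplicit false
set_option linter.style.haveILetI false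
set_option linter.unusedSectionVars false

noncomputable section

open WeierstrassCurve NumberField IsDedekindDomain
open FA.ClassNumberOne (xP)
open scoped WeierstrassCurve.Affine Classical

local notation "Qb" => AlgebraicClosure ℚ
local notation "GQ" => AlgebraicClosure ℚ ≃ₐ[ℚ] AlgebraicClosure ℚ

namespace FA.CMRayClass

/-- The units are `± 1`. -/
theorem unit_eq_one_or {K : Type*} [Field K] [NumberField K] {d : ℤ} {s : K}
    (hK : Module.finrank ℚ K = 2) (hd : Squarefree d) (hd0 : d < 0) (h1 : d ≠ -1) (h3 : d ≠ -3)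
    (hs : s ^ 2 = (d : K)) (u : (𝓞 K)ˣ) : (u : 𝓞 K) = 1 ∨ (u : 𝓞 K) = -1 := by
  obtain ⟨A, B, h2, hN⟩ := FA.Euclidean.exists_coord_norm hK hd hd0 hs (u : 𝓞 K)
  have h4 : A ^ 2 - d * B ^ 2 = 4 := by
    rcases Int.isUnit_iff.mp (u.isUnit.map (Algebra.norm ℤ)) with h | h <;> rw [h] at hN
    · simpa using hN
    · nlinarith [sq_nonneg A, sq_nonneg B]
  have hd4 : d ≠ -4 := fun h => by
    subst h
    have := hd 2 (by norm_num)
    norm_num [Int.isUnit_iff] at this
  have hB : B = 0 := by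
    by_contra hB
    have hB1 : 1 ≤ B ^ 2 := (sq_pos_iff.mpr hB)
    rcases le_or_gt d (-5) with h | h
    · nlinarith [sq_nonneg A]
    · obtain rfl : d = -2 := by omega
      have hB2 : B ^ 2 ≤ 2 := by nlinarith [sq_nonneg A]
      have hBu : B ≤ 1 := by nlinarith
      have hBl : -1 ≤ B := by nlinarith
      have hBB : B ^ 2 = 1 := by
        rcases (show B = 1 ∨ B = -1 by omega) with rfl | rfl <;> norm_num
      have hAu : A ≤ 1 := by nlinarith
      have hAl : -1 ≤ A := by nlinarith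
      rcases (show A = 1 ∨ A = -1 ∨ A = 0 by omega) with rfl | rfl | rfl <;> omega
  subst hB
  rcases sq_eq_sq_iff_eq_or_eq_neg.mp (show A ^ 2 = 2 ^ 2 by linarith) with rfl | rfl
  · left
    refine RingOfIntegers.coe_injective (mul_left_cancel₀ (two_ne_zero (α := K)) ?_)
    simpa using h2
  · right
    refine RingOfIntegers.coe_injective (mul_left_cancel₀ (two_ne_zero (α := K)) ?_)
    simpa using h2

/-- **An element fixed by the commutators lies in an abelian extension with an Artin map.** -/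
theorem exists_artin_of_commutators {d : ℤ} {s : Qb} (hs : s ^ 2 = (d : Qb))
    [NumberField (IntermediateField.adjoin ℚ {s})] {x : Qb}
    (hx : ∀ σ τ : GQ, σ s = s → τ s = s → (σ * τ * σ⁻¹ * τ⁻¹) x = x) :
    ∃ (R : Type) (_ : Field R) (_ : NumberField R)
      (_ : Algebra (IntermediateField.adjoin ℚ {s}) R)
      (_ : IsGalois (IntermediateField.adjoin ℚ {s}) R)
      (𝔪 : Ideal (𝓞 (IntermediateField.adjoin ℚ {s}))) (h𝔪 : 𝔪 ≠ ⊥)
      (ω : FA.Hecke.RayClassGroup 𝔪 →* (R ≃ₐ[IntermediateField.adjoin ℚ {s}] R))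
      (ι : R →ₐ[IntermediateField.adjoin ℚ {s}] Qb) (z : R),
      ι z = x ∧ ∀ (v : HeightOneSpectrum (𝓞 (IntermediateField.adjoin ℚ {s})))
        (hv : v.asIdeal ⊔ 𝔪 = ⊤) (Q : HeightOneSpectrum (𝓞 R))
        (τ : R ≃ₐ[IntermediateField.adjoin ℚ {s}] R),
          Q.asIdeal.under (𝓞 (IntermediateField.adjoin ℚ {s})) = v.asIdeal →
            IsArithFrobAt (𝓞 (IntermediateField.adjoin ℚ {s})) τ Q.asIdeal →
              ω (FA.Hecke.rayClass h𝔪 ⟨FA.Ext.primeIdeal v, hv⟩) = τ := by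
  haveI : IsGalois ℚ Qb := FA.EC.isGalois_algebraicClosure
  set K₀ := IntermediateField.adjoin ℚ ({s, x} : Set Qb) with hK₀
  haveI : FiniteDimensional ℚ K₀ :=
    IntermediateField.finiteDimensional_adjoin fun z _ => Algebra.IsIntegral.isIntegral z
  set L := IntermediateField.normalClosure ℚ K₀ Qb with hL
  haveI : Normal ℚ L := normalClosure.normal ℚ K₀ Qb
  haveI : IsGalois ℚ L := ⟨⟩
  haveI : FiniteDimensional ℚ L := normalClosure.is_finiteDimensional ℚ K₀ Qb
  haveI : NumberField L := { }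
  have hle₀ : K₀ ≤ L := IntermediateField.le_normalClosure K₀
  have hcomm : ∀ σ τ : GQ, σ s = s → τ s = s → ∀ z ∈ L, (σ * τ * σ⁻¹ * τ⁻¹) z = z := by
    intro σ τ hσ hτ z hz
    suffices hL' : L ≤ IntermediateField.fixedField (Subgroup.zpowers (σ * τ * σ⁻¹ * τ⁻¹)) from
      (IntermediateField.mem_fixedField_iff _ _).mp (hL' hz) _ (Subgroup.mem_zpowers _)
    rw [hL, normalClosure_le_iff]
    intro f
    obtain ⟨g, hg⟩ : ∃ g : GQ, ∀ k : K₀, g (k : Qb) = f k := by
      refine ⟨AlgEquiv.ofBijective (f.liftNormal Qb)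
        (AlgHom.normal_bijective ℚ Qb Qb _), fun k => ?_⟩
      exact f.liftNormal_commutes Qb k
    rintro _ ⟨k, rfl⟩
    rw [IntermediateField.mem_fixedField_iff]
    intro c hc
    obtain ⟨i, rfl⟩ := hc
    have hmem : g⁻¹ * (σ * τ * σ⁻¹ * τ⁻¹) * g ∈ K₀.fixingSubgroup := by
      rw [IntermediateField.mem_fixingSubgroup_iff]
      intro w hw
      induction hw using IntermediateField.adjoin_induction with
      | mem v hv =>
        rw [show g⁻¹ * (σ * τ * σ⁻¹ * τ⁻¹) * g =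
          (g⁻¹ * σ * g⁻¹⁻¹) * (g⁻¹ * τ * g⁻¹⁻¹) * (g⁻¹ * σ * g⁻¹⁻¹)⁻¹ *
            (g⁻¹ * τ * g⁻¹⁻¹)⁻¹ by group]
        have h1 := FA.Jugendtraum.conj_apply_sqrt hs hσ g⁻¹
        have h2 := FA.Jugendtraum.conj_apply_sqrt hs hτ g⁻¹
        rcases hv with hv | hv
        · have key : ∀ u : GQ, u s = s → u⁻¹ s = s := fun u hu => by
            conv_lhs => rw [← hu]
            exact u.symm_apply_apply s
          rw [hv]
          generalize g⁻¹ * σ * g⁻¹⁻¹ = σ' at h1 ⊢
          generalize g⁻¹ * τ * g⁻¹⁻¹ = τ' at h2 ⊢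
          simp only [AlgEquiv.mul_apply]
          rw [key _ h2, key _ h1, h2, h1]
        · rw [Set.mem_singleton_iff.mp hv]
          exact hx _ _ h1 h2
      | algebraMap v => exact AlgEquiv.commutes _ v
      | add v w _ _ hv hw => rw [map_add, hv, hw]
      | inv v _ hv => rw [map_inv₀, hv]
      | mul v w _ _ hv hw => rw [map_mul, hv, hw]
    have hmem' := zpow_mem hmem i
    rw [show g⁻¹ * (σ * τ * σ⁻¹ * τ⁻¹) * g = g⁻¹ * (σ * τ * σ⁻¹ * τ⁻¹) * g⁻¹⁻¹ by
      rw [inv_inv], conj_zpow, inv_inv] at hmem'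
    have h1 := congrArg g ((IntermediateField.mem_fixingSubgroup_iff _ _).mp hmem' k k.2)
    rw [AlgEquiv.mul_apply, AlgEquiv.mul_apply, hg k] at h1
    refine Eq.trans ?_ h1
    exact (g.apply_symm_apply _).symm
  have hle : IntermediateField.adjoin ℚ {s} ≤ L := IntermediateField.adjoin_simple_le_iff.mpr
    (hle₀ (IntermediateField.subset_adjoin _ _ (Set.mem_insert _ _)))
  letI : Algebra (IntermediateField.adjoin ℚ {s}) L :=
    (IntermediateField.inclusion hle).toRingHom.toAlgebra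
  haveI : IsScalarTower ℚ (IntermediateField.adjoin ℚ {s}) L :=
    IsScalarTower.of_algebraMap_eq fun _ => rfl
  haveI : IsGalois (IntermediateField.adjoin ℚ {s}) L := IsGalois.tower_top_of_isGalois ℚ _ L
  let ι : L →ₐ[IntermediateField.adjoin ℚ {s}] Qb :=
    { L.val.toRingHom with commutes' := fun _ => rfl }
  set π : GQ →* (L ≃ₐ[ℚ] L) := AlgEquiv.restrictNormalHom L with hπdef
  have hπ : Function.Surjective π := AlgEquiv.restrictNormalHom_surjective (F := ℚ) (K₁ := L) Qb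
  have hval : ∀ (g : GQ) (y : L), ((π g y : L) : Qb) = g y :=
    fun g y => AlgEquiv.restrictNormal_commutes g L y
  -- the Galois group over `ℚ(√d)` is commutative
  have hab : ∀ g g' : L ≃ₐ[IntermediateField.adjoin ℚ {s}] L, g * g' = g' * g := fun g g' => by
    obtain ⟨σ, hσ⟩ := hπ (g.restrictScalars ℚ)
    obtain ⟨τ, hτ⟩ := hπ (g'.restrictScalars ℚ)
    have hfix : ∀ (u : GQ) (k : L ≃ₐ[IntermediateField.adjoin ℚ {s}] L),
        π u = k.restrictScalars ℚ → u s = s := fun u k hu => by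
      have h1 := hval u (algebraMap (IntermediateField.adjoin ℚ {s}) L
        ⟨s, IntermediateField.mem_adjoin_simple_self ℚ s⟩)
      rw [hu, AlgEquiv.restrictScalars_apply, k.commutes] at h1
      exact h1.symm
    have hc : π (σ * τ * σ⁻¹ * τ⁻¹) = 1 := AlgEquiv.ext fun y => Subtype.ext
      ((hval _ y).trans (hcomm σ τ (hfix σ g hσ) (hfix τ g' hτ) y y.2))
    rw [map_mul, map_mul, map_mul, map_inv, map_inv, hσ, hτ, ← commutatorElement_def,
      commutatorElement_eq_one_iff_mul_comm] at hc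
    exact AlgEquiv.restrictScalars_injective ℚ hc
  obtain ⟨𝔪, h𝔪, -, ω, -, -, hω⟩ :=
    FA.Summary.artin_reciprocity (IntermediateField.adjoin ℚ {s}) L hab
  exact ⟨L, inferInstance, inferInstance, inferInstance, inferInstance, 𝔪, h𝔪, ω, ι,
    ⟨x, hle₀ (IntermediateField.subset_adjoin _ _ (Set.mem_insert_of_mem _ (Set.mem_singleton _)))⟩,
    rfl, hω⟩

/-- **Every element of the maximal abelian extension is fixed with some level.** -/
theorem exists_level_of_commutators (F : IntermediateField ℚ Qb) [FiniteDimensional ℚ F]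
    (E : WeierstrassCurve F) [E.IsElliptic] (ψ : F →+* ℂ) {d : ℤ} (hd : Squarefree d) (hd0 : d < 0)
    (hcm : ∃ L : PeriodPair, L.g₂ = ψ E.c₄ / 12 ∧ L.g₃ = ψ E.c₆ / 216 ∧
      ∃ ω : ℂ, (∀ m : ℤ, ω ≠ m) ∧ (∀ l ∈ L.lattice, ω * l ∈ L.lattice) ∧
        ∃ x y : ℚ, (ω - (x : ℂ)) ^ 2 = (d : ℂ) * (y : ℂ) ^ 2)
    {s : Qb} (hs : s ^ 2 = (d : Qb)) [NumberField (IntermediateField.adjoin ℚ {s})] {x : Qb}
    (hx : ∀ σ τ : GQ, σ s = s → τ s = s → (σ * τ * σ⁻¹ * τ⁻¹) x = x) :
    ∃ n : ℕ, 0 < n ∧ ∀ σ : GQ, σ s = s → (∀ z ∈ F, σ z = z) →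
      (∀ P : (E.toAffine⁄Qb).Point, n • P = 0 → σ (xP P) = xP P) → σ x = x := by
  obtain ⟨R, _, _, _, _, 𝔪, h𝔪, ω, ι, z, rfl, hω⟩ := exists_artin_of_commutators hs hx
  refine ⟨Ideal.absNorm 𝔪, Nat.pos_of_ne_zero (Ideal.absNorm_eq_zero_iff.not.mpr h𝔪),
    fun σ hσs hσF hσn => ?_⟩
  exact fixed_of_level F E ψ hd hd0 hcm hs h𝔪 (Ideal.absNorm_eq_zero_iff.not.mpr h𝔪)
    (Ideal.absNorm_mem 𝔪) ω hω ι hσs hσF hσn z

end FA.CMRayClass

end
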