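import Fermat.Agent.JugendtraumField.Multiplier
import Fermat.Agent.JugendtraumField.Local
import Fermat.Agent.Jugendtraum.Main

/-!
# Abelian extensions with a given modulus inside fields of torsion abscissae

Let `E` over `F` have a multiplier in `K = ℚ(√d)` and let `L/K` be abelian with Artin map modulo an
ideal containing `n`.  An automorphism fixing `F K` and the abscissae of the points killed by `n` is
`± 1` on these points, so it is the identity on `L`: its trace `a` at a Frobenius prime `q` has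
`n ∣ a ∓ 2` and `n² ∣ q + 1 ∓ a`, and `a² - 4 q = d b²`.
-/

set_option autoImplicit false
set_option linter.style.haveILetI false
set_option linter.unusedSectionVars false

noncomputable section

open WeierstrassCurve NumberField IsDedekindDomain FA.IsogenyNF
open FA.JugendtraumField (exists_good exists_trace)
open FA.Hecke (RayClassGroup rayClass)
open FA.Ext (primeIdeal)
open FA.ClassNumberOne (xP yP)
open scoped WeierstrassCurve.Affine Classical Pointwise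

local notation "Qb" => AlgebraicClosure ℚ
local notation "GQ" => AlgebraicClosure ℚ ≃ₐ[ℚ] AlgebraicClosure ℚ

namespace FA.CMRayClass

/-- An automorphism fixing the abscissae of the points killed by `n` is `± 1` on them. -/
theorem exists_sign {F : Type} [Field F] [Algebra F Qb] (E : WeierstrassCurve F) [E.IsElliptic]
    (σ : Qb ≃ₐ[F] Qb) (n : ℕ)
    (h : ∀ P : (E.toAffine⁄Qb).Point, n • P = 0 → σ (xP P) = xP P) :
    ∃ ε : ℤ, (ε = 1 ∨ ε = -1) ∧ ∀ P : (E.toAffine⁄Qb).Point, n • P = 0 → σ • P = ε • P := by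
  have hpm : ∀ P : (E.toAffine⁄Qb).Point, n • P = 0 → σ • P = P ∨ σ • P = -P := fun P hP => by
    have hx := h P hP
    rcases P with _ | ⟨x, y, hns⟩
    · exact Or.inl rfl
    obtain ⟨h', e⟩ := FA.Local.smul_some (σ := σ) E hns
    rw [e]
    have hx' : σ x = x := hx
    rcases Affine.Y_eq_of_X_eq h'.1 hns.1 hx' with hy | hy
    · exact Or.inl ((Affine.Point.some.injEq ..).mpr ⟨hx', hy⟩)
    · refine Or.inr ?_
      rw [Affine.Point.neg_some]
      exact (Affine.Point.some.injEq ..).mpr ⟨hx', hy⟩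
  by_cases hall : ∀ P : (E.toAffine⁄Qb).Point, n • P = 0 → σ • P = P
  · exact ⟨1, Or.inl rfl, fun P hP => by rw [one_zsmul]; exact hall P hP⟩
  push Not at hall
  obtain ⟨P₀, hP₀, hne⟩ := hall
  have h0 := (hpm P₀ hP₀).resolve_left hne
  refine ⟨-1, Or.inr rfl, fun P hP => ?_⟩
  rw [neg_one_zsmul]
  rcases hpm P hP with h1 | h1
  · rcases hpm (P + P₀) (by rw [nsmul_add, hP, hP₀, add_zero]) with h2 | h2
    · rw [Affine.Point.algEquiv_smul_def, map_add, ← Affine.Point.algEquiv_smul_def,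
        ← Affine.Point.algEquiv_smul_def, h1, h0, add_right_inj] at h2
      exact absurd (h0.trans h2) hne
    · rw [Affine.Point.algEquiv_smul_def, map_add, ← Affine.Point.algEquiv_smul_def,
        ← Affine.Point.algEquiv_smul_def, h1, h0, neg_add, add_left_inj] at h2
      rw [h1]
      exact h2
  · exact h1

variable {d : ℤ} {s : Qb}

set_option quotPrecheck false in
local notation "𝕂" => IntermediateField.adjoin ℚ ({s} : Set (AlgebraicClosure ℚ))

/-- An automorphism fixing `√d` fixes `ℚ(√d)`. -/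
theorem apply_of_mem_adjoin {σ : GQ} (hσ : σ s = s) {y : Qb}
    (hy : y ∈ 𝕂) : σ y = y := by
  induction hy using IntermediateField.adjoin_induction with
  | mem z hz => rw [Set.mem_singleton_iff.mp hz]; exact hσ
  | algebraMap z => exact AlgEquiv.commutes _ z
  | add z w _ _ hz hw => rw [map_add, hz, hw]
  | inv z _ hz => rw [map_inv₀, hz]
  | mul z w _ _ hz hw => rw [map_mul, hz, hw]

/-- An automorphism fixing `√d`, over `ℚ(√d)`. -/
def overK {σ : GQ} (hσ : σ s = s) :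
    Qb ≃ₐ[𝕂] Qb :=
  AlgEquiv.ofRingEquiv (f := σ.toRingEquiv) fun y => apply_of_mem_adjoin hσ y.2

theorem overK_apply {σ : GQ} (hσ : σ s = s) (z : Qb) : overK hσ z = σ z := rfl

/-- The commutators of the automorphisms fixing `√d` fix every abelian extension of `ℚ(√d)`. -/
theorem commutator_fix {L : Type} [Field L] [Algebra 𝕂 L]
    [IsGalois 𝕂 L]
    (hab : ∀ g h : L ≃ₐ[𝕂] L, g * h = h * g)
    (ι : L →ₐ[𝕂] Qb) {σ τ : GQ} (hσ : σ s = s) (hτ : τ s = s)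
    (z : L) : (σ * τ * σ⁻¹ * τ⁻¹) (ι z) = ι z := by
  letI : Algebra L Qb := ι.toRingHom.toAlgebra
  haveI : IsScalarTower 𝕂 L Qb :=
    IsScalarTower.of_algebraMap_eq fun k => (ι.commutes k).symm
  have hr : ∀ (g : Qb ≃ₐ[𝕂] Qb) (y : L),
      ι (g.restrictNormal L y) = g (ι y) := fun g y => g.restrictNormal_commutes L y
  set r := AlgEquiv.restrictNormalHom (F := 𝕂) (K₁ := Qb) L
  have h : r (overK hσ * overK hτ * (overK hσ)⁻¹ * (overK hτ)⁻¹) = 1 := by
    rw [map_mul, map_mul, map_mul, map_inv, map_inv, hab (r (overK hσ)), mul_inv_cancel_right,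
      mul_inv_cancel]
  have h1 := hr (overK hσ * overK hτ * (overK hσ)⁻¹ * (overK hτ)⁻¹) z
  rw [show (overK hσ * overK hτ * (overK hσ)⁻¹ * (overK hτ)⁻¹).restrictNormal L = 1 from h,
    AlgEquiv.one_apply] at h1
  exact h1.symm

/-- **An automorphism fixing `F 𝕂` and the abscissae of level `n` is trivial on the abelian
extensions with Artin map modulo a divisor of `n`.** -/
theorem fixed_of_level (F : IntermediateField ℚ Qb) [FiniteDimensional ℚ F] (E : WeierstrassCurve F)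
    [E.IsElliptic] (ψ : F →+* ℂ) (hd : Squarefree d) (hd0 : d < 0)
    (hcm : ∃ L : PeriodPair, L.g₂ = ψ E.c₄ / 12 ∧ L.g₃ = ψ E.c₆ / 216 ∧
      ∃ ω : ℂ, (∀ m : ℤ, ω ≠ m) ∧ (∀ l ∈ L.lattice, ω * l ∈ L.lattice) ∧
        ∃ x y : ℚ, (ω - (x : ℂ)) ^ 2 = (d : ℂ) * (y : ℂ) ^ 2)
    (hs : s ^ 2 = (d : Qb)) [NumberField 𝕂]
    {L : Type} [Field L] [NumberField L] [Algebra 𝕂 L]
    [IsGalois 𝕂 L]
    {𝔪 : Ideal (𝓞 𝕂)} (h𝔪 : 𝔪 ≠ ⊥) {n : ℕ} (hn0 : n ≠ 0)
    (hn𝔪 : (n : 𝓞 𝕂) ∈ 𝔪)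
    (ω : RayClassGroup 𝔪 →* (L ≃ₐ[𝕂] L))
    (hω : ∀ (v : HeightOneSpectrum (𝓞 𝕂))
      (hv : v.asIdeal ⊔ 𝔪 = ⊤) (Q : HeightOneSpectrum (𝓞 L))
      (τ : L ≃ₐ[𝕂] L),
        Q.asIdeal.under (𝓞 𝕂) = v.asIdeal →
          IsArithFrobAt (𝓞 𝕂) τ Q.asIdeal →
            ω (rayClass h𝔪 ⟨primeIdeal v, hv⟩) = τ)
    (ι : L →ₐ[𝕂] Qb) {σ : GQ} (hσs : σ s = s)
    (hσF : ∀ z ∈ F, σ z = z)
    (hσn : ∀ P : (E.toAffine⁄Qb).Point, n • P = 0 → σ (xP P) = xP P) (z : L) :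
    σ (ι z) = ι z := by
  haveI : IsGalois ℚ Qb := FA.EC.isGalois_algebraicClosure
  haveI : Algebra.IsAlgebraic F Qb := Algebra.IsAlgebraic.tower_top (K := ℚ) F
  haveI : NumberField F := { }
  have hsK : s ∈ 𝕂 := IntermediateField.mem_adjoin_simple_self ℚ s
  have hK := FA.Jugendtraum.finrank_adjoin_sqrt hd0 hs
  haveI : Algebra.IsQuadraticExtension ℚ 𝕂 := { finrank_eq_two' := hK }
  set sK : 𝕂 := ⟨s, hsK⟩ with hsKdef
  have hsK2 : sK ^ 2 = (d : 𝕂) := Subtype.ext (by simpa [hsKdef] using hs)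
  -- the sign
  let σF : Qb ≃ₐ[F] Qb := AlgEquiv.ofRingEquiv (f := σ.toRingEquiv) fun y => hσF y y.2
  obtain ⟨ε, hε, hεP⟩ := exists_sign E σF n hσn
  -- Chebotarev
  obtain ⟨m₀, hm₀0, hm₀⟩ := exists_good E
  set T : Set Qb := xP '' {P : (E.toAffine⁄Qb).Point | n • P = 0} ∪
    yP '' {P : (E.toAffine⁄Qb).Point | n • P = 0} with hT
  haveI : Finite T := (((finite_nsmul_eq_zero (W := E) hn0).image _).union
    ((finite_nsmul_eq_zero (W := E) hn0).image _)).to_subtype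
  haveI : FiniteDimensional ℚ (IntermediateField.adjoin ℚ T) :=
    IntermediateField.finiteDimensional_adjoin fun z _ => Algebra.IsIntegral.isIntegral z
  let ιℚ : L →ₐ[ℚ] Qb := ι.toRingHom.toRatAlgHom
  haveI : FiniteDimensional ℚ ιℚ.fieldRange :=
    Module.Finite.equiv (AlgEquiv.ofInjectiveField ιℚ).toLinearEquiv
  set M₀ := F ⊔ 𝕂 ⊔ ιℚ.fieldRange ⊔ IntermediateField.adjoin ℚ T with hM₀
  set M := IntermediateField.normalClosure ℚ M₀ Qb with hM
  haveI : Normal ℚ M := normalClosure.normal ℚ M₀ Qb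
  haveI : FiniteDimensional ℚ M := normalClosure.is_finiteDimensional ℚ M₀ Qb
  haveI : IsGalois ℚ M := ⟨⟩
  have hM0 : M₀ ≤ M := IntermediateField.le_normalClosure M₀
  have hFM : F ≤ M := le_trans (le_trans (le_trans le_sup_left le_sup_left) le_sup_left) hM0
  have hKM : 𝕂 ≤ M := le_trans (le_trans (le_trans le_sup_right le_sup_left) le_sup_left) hM0
  have hLM : ιℚ.fieldRange ≤ M := le_trans (le_trans le_sup_right le_sup_left) hM0
  have hTM : IntermediateField.adjoin ℚ T ≤ M := le_trans le_sup_right hM0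
  let f : GQ →* (M ≃ₐ[ℚ] M) := AlgEquiv.restrictNormalHom M
  have hker : IsOpen (f.ker : Set GQ) := FA.Chebotarev.isOpen_ker_restrict
  obtain ⟨q, hq, hqS, hF⟩ := FA.OpenImageAll.exists_frobenius_mem_of_mem f hker
    (X := {g | IsConj (f σ) g}) (fun g hg x => hg.trans (isConj_iff.mpr ⟨x, rfl⟩))
    (σ := σ) (IsConj.refl _) (m₀.divisors ∪ n.primeFactors)
  simp only [Finset.mem_union, not_or] at hqS
  obtain ⟨hqm₀, hqn'⟩ := hqS
  haveI := Fact.mk hq
  have hqn : ¬ q ∣ n := fun hd' => hqn' (Nat.mem_primeFactors.mpr ⟨hq, hd', hn0⟩)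
  obtain ⟨A₀, hA₀⟩ := FA.Deform.exists_liesOverPrime hq
  obtain ⟨φ₀, hφ₀⟩ := FA.Deform.exists_isFrobeniusAt hq hA₀
  obtain ⟨x, hx⟩ := isConj_iff.mp (hF A₀ hA₀ φ₀ hφ₀)
  obtain ⟨g, hg⟩ := AlgEquiv.restrictNormalHom_surjective (F := ℚ) (K₁ := M) Qb x
  set A := g⁻¹ • A₀ with hAdef
  set φ := g⁻¹ * φ₀ * g⁻¹⁻¹ with hφdef
  have hA : A.LiesOverPrime q := FA.Density.liesOverPrime_smul hA₀ g⁻¹
  have hφ : A.IsFrobeniusAt φ q := FA.Density.isFrobeniusAt_smul hφ₀ g⁻¹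
  have hfφ : f φ = f σ := by
    rw [hφdef, inv_inv, map_mul, map_mul, map_inv, show f g = x from hg, ← hx]
    group
  have hagree : ∀ y ∈ M, φ y = σ y := fun y hy => by
    have h1 := AlgEquiv.restrictNormal_commutes φ M ⟨y, hy⟩
    have h2 := AlgEquiv.restrictNormal_commutes σ M ⟨y, hy⟩
    exact h1.symm.trans ((congrArg (fun u : M ≃ₐ[ℚ] M => ((u ⟨y, hy⟩ : M) : Qb)) hfφ).trans h2)
  have hφs : φ s = s := (hagree s (hKM hsK)).trans hσs
  let φF : Qb ≃ₐ[F] Qb := AlgEquiv.ofRingEquiv (f := φ.toRingEquiv) fun y =>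
    (hagree y (hFM y.2)).trans (hσF y y.2)
  have hφF : ∀ y, φF y = φ y := fun y => rfl
  have hfix : ∀ P : (E.toAffine⁄Qb).Point, n • P = 0 → φF • P = ε • P := fun P hP => by
    rw [← hεP P hP]
    have hx' : φF (xP P) = σF (xP P) :=
      hagree _ (hTM (IntermediateField.subset_adjoin ℚ T (Or.inl ⟨P, hP, rfl⟩)))
    have hy' : φF (yP P) = σF (yP P) :=
      hagree _ (hTM (IntermediateField.subset_adjoin ℚ T (Or.inr ⟨P, hP, rfl⟩)))
    rcases P with _ | ⟨u, w, h⟩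
    · rfl
    obtain ⟨h', e⟩ := FA.Local.smul_some (σ := φF) E h
    obtain ⟨h'', e'⟩ := FA.Local.smul_some (σ := σF) E h
    rw [e, e']
    exact (Affine.Point.some.injEq ..).mpr ⟨hx', hy'⟩
  obtain ⟨hI, hΔ⟩ := hm₀ q hq (fun hd' => hqm₀ (Nat.mem_divisors.mpr ⟨hd', hm₀0⟩)) A hA
  obtain ⟨a, ha⟩ := exists_trace hq hA hφ hφF hI hΔ
  obtain ⟨b, hb⟩ := FA.JugendtraumField.exists_normEquation E ψ hd hcm hs a q {q}
    fun r hr hrq => by
      have hqr : ¬ q ∣ r := fun hd' => hrq (Finset.mem_singleton.mpr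
        ((Nat.prime_dvd_prime_iff_eq hq hr).mp hd').symm)
      exact ⟨φF, hφs, (ha r hqr).1, fun c hc => ((ha r hqr).2 c hc).1⟩
  obtain ⟨⟨h2a, -⟩, hsq⟩ := (ha n hqn).2 ε hfix
  have hqε : ¬ (q : ℤ) ∣ ε := fun h => hq.one_lt.ne' (Nat.dvd_one.mp (by
    rcases hε with rfl | rfl
    · exact Int.natCast_dvd_natCast.mp h
    · exact Int.natCast_dvd_natCast.mp (dvd_neg.mp h)))
  have hεε : ε ^ 2 = 1 := by rcases hε with rfl | rfl <;> norm_num
  have h2 : (n : ℤ) ^ 2 ∣ (q : ℤ) + 1 - ε * a := by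
    have h := hsq hqε
    rwa [show ε ^ 2 - a * ε + q = q + 1 - ε * a by rw [hεε]; ring] at h
  have h1 : (n : ℤ) ∣ ε * a - 2 := by
    obtain ⟨k, hk⟩ := h2a
    exact ⟨-(ε * k), by linear_combination -ε * hk + 2 * hεε⟩
  -- the Frobenius element on `L`
  letI : Algebra L Qb := ι.toRingHom.toAlgebra
  haveI : IsScalarTower 𝕂 L Qb := IsScalarTower.of_algebraMap_eq fun k => (ι.commutes k).symm
  set τ : L ≃ₐ[𝕂] L := (overK hφs).restrictNormal L with hτdef
  have hτ : ∀ y : L, ι (τ y) = φ (ι y) := fun y => (overK hφs).restrictNormal_commutes L y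
  let j : 𝓞 L →+* FA.Deform.ZBar := (ι.toRingHom.comp (algebraMap (𝓞 L) L)).codRestrict
    (integralClosure ℤ Qb).toSubring fun y =>
      (map_isIntegral_int ι.toRingHom (RingOfIntegers.isIntegral_coe y) :)
  let Q₀ : Ideal (𝓞 L) := (FA.Deform.primeAt A).comap j
  have hqQ : (q : 𝓞 L) ∈ Q₀ := by
    show j q ∈ FA.Deform.primeAt A
    rw [map_natCast, FA.Deform.mem_primeAt]
    exact hA
  have hQp : Q₀.IsPrime := Ideal.comap_isPrime _ _
  have hQ0 : Q₀ ≠ ⊥ := fun h => by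
    rw [h, Ideal.mem_bot] at hqQ
    exact hq.ne_zero (by exact_mod_cast hqQ)
  haveI : Q₀.IsMaximal := hQp.isMaximal hQ0
  have hfrob₀ : ∀ y : 𝓞 L, τ • y - y ^ q ∈ Q₀ := fun y => by
    show j (τ • y - y ^ q) ∈ FA.Deform.primeAt A
    rw [FA.Deform.mem_primeAt]
    have e : ((j (τ • y - y ^ q) : FA.Deform.ZBar) : Qb) = φ (ι (y : L)) - ι (y : L) ^ q := by
      show ι (τ (y : L) - (y : L) ^ q) = _
      rw [map_sub, map_pow, hτ]
    rw [e]
    exact FA.Density.sub_pow_mem_nonunits hφ (FA.Deform.zbar_mem_valuationSubring A (j y))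
  have hmax : (Q₀.under (𝓞 𝕂)).IsMaximal := Ideal.IsMaximal.under (𝓞 𝕂) Q₀
  have hqv : (q : 𝓞 𝕂) ∈ Q₀.under (𝓞 𝕂) := by
    rw [Ideal.mem_comap, map_natCast]; exact hqQ
  have hcard : Nat.card (𝓞 𝕂 ⧸ Q₀.under (𝓞 𝕂)) = q := by
    refine FA.Chebotarev.natCard_quotient_of_forall_pow hq hmax hqv fun y => ?_
    rw [Ideal.mem_comap, map_sub, map_pow]
    have h1 := neg_mem (hfrob₀ (algebraMap (𝓞 𝕂) (𝓞 L) y))
    rw [neg_sub] at h1
    convert h1 using 2
    exact RingOfIntegers.ext (τ.commutes (y : 𝕂)).symm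
  -- a generator congruent to one
  obtain ⟨c₀, hc₀⟩ : ∃ c : 𝕂 ≃ₐ[ℚ] 𝕂, c sK = -sK := by
    by_contra hcon
    push Not at hcon
    have hfixed : sK ∈ (⊥ : IntermediateField ℚ 𝕂) := by
      rw [← IsGalois.fixedField_top (F := ℚ) (E := 𝕂), IntermediateField.mem_fixedField_iff]
      intro c _
      exact ((sq_eq_sq_iff_eq_or_eq_neg).mp (by
        rw [← map_pow, hsK2, map_intCast])).resolve_right (hcon c)
    obtain ⟨r, hr⟩ := IntermediateField.mem_bot.mp hfixed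
    have hsq : r ^ 2 = (d : ℚ) := (algebraMap ℚ 𝕂).injective (by
      rw [map_pow, hr, map_intCast]; exact hsK2)
    have : (d : ℚ) < 0 := Int.cast_lt_zero.mpr hd0
    nlinarith [sq_nonneg r]
  obtain ⟨ρ, hρ, hρ1⟩ := FA.Jugendtraum.exists_ray_generator c₀ hK (s := sK) (a := ε * a) (b := b)
    hsK2 hc₀ hq (by linear_combination -hb - a ^ 2 * hεε) hn0 h1 h2
    hmax.isPrime hqv (by rw [Ideal.absNorm_apply, Submodule.cardQuot_apply]; exact hcard)
  -- Artin reciprocity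
  have hρ𝔪 : ρ - 1 ∈ 𝔪 := Ideal.mem_of_dvd 𝔪 hρ1 hn𝔪
  let v : HeightOneSpectrum (𝓞 𝕂) := ⟨Q₀.under (𝓞 𝕂), hmax.isPrime,
    Ring.ne_bot_of_isMaximal_of_not_isField hmax (RingOfIntegers.not_isField _)⟩
  have hv : v.asIdeal ⊔ 𝔪 = ⊤ := by
    rw [Ideal.eq_top_iff_one]
    have hρv : ρ ∈ v.asIdeal := by
      show ρ ∈ Q₀.under (𝓞 𝕂)
      rw [hρ]; exact Ideal.mem_span_singleton_self ρ
    have := sub_mem (Ideal.mem_sup_left hρv) (Ideal.mem_sup_right (S := v.asIdeal) hρ𝔪)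
    rwa [sub_sub_cancel] at this
  let Q : HeightOneSpectrum (𝓞 L) := ⟨Q₀, hQp, hQ0⟩
  have hfrob : IsArithFrobAt (𝓞 𝕂) τ Q.asIdeal := fun y => by
    show _ ∈ Q₀
    rw [hcard]
    exact hfrob₀ y
  have hclass : rayClass h𝔪 ⟨primeIdeal v, hv⟩ = 1 := by
    refine (FA.HeckeTorus.rayClass_eq_one_iff h𝔪 _).mpr ⟨ρ, ⟨?_, hρ𝔪, fun χ => ?_⟩, hρ.symm⟩
    · rintro rfl
      exact v.ne_bot (hρ.trans (Ideal.span_singleton_eq_bot.mpr rfl))
    · exfalso
      have h1 : χ sK ^ 2 = (d : ℝ) := by rw [← map_pow, hsK2, map_intCast]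
      have : (d : ℝ) < 0 := Int.cast_lt_zero.mpr hd0
      nlinarith [sq_nonneg (χ sK)]
  have hone := hω v hv Q τ rfl hfrob
  rw [hclass, map_one] at hone
  have hzM : ι z ∈ M := hLM ⟨z, rfl⟩
  rw [← hagree _ hzM, ← hτ z, ← hone]
  rfl

end FA.CMRayClass

end
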