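import Fermat.Agent.Tau.FieldClassEquality
import Fermat.Agent.CMRayClass.Level

/-!
# The invariant of a curve with multiplication by the maximal order

If the multiplier ring is the maximal order of `ℚ(√d)` then `j` has degree the class number and is
the invariant of a curve over `ℚ(j)` with the same multiplier ring.
-/

set_option autoImplicit false
set_option linter.style.haveILetI false
set_option linter.unusedSectionVars false

noncomputable section

open WeierstrassCurve NumberField Module FA.CMFields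
open FA.FieldClassBound (discK discK_neg omega_discK classNumber_eq_ncard_red)
open FA.Singular (Red values)
open scoped Classical

local notation "Qb" => AlgebraicClosure ℚ

namespace FA.CMRayClass

/-- The images of a normal extension in an algebraically closed field coincide. -/
theorem apply_mem_range {K L M : Type*} [Field K] [Field L] [Field M] [Algebra K L] [Algebra K M]
    [Normal K L] (ι₁ ι₂ : L →ₐ[K] M) (z : L) : ι₂ z ∈ Set.range ι₁ := by
  have hne : minpoly K z ≠ 0 := minpoly.ne_zero (Normal.isIntegral inferInstance z)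
  have hmem : ι₂ z ∈ (minpoly K z).rootSet M :=
    Polynomial.mem_rootSet.mpr ⟨hne, by rw [Polynomial.aeval_algHom_apply, minpoly.aeval, map_zero]⟩
  rw [← (Normal.splits inferInstance z).image_rootSet ι₁] at hmem
  obtain ⟨y, -, hy⟩ := hmem
  exact ⟨y, hy⟩

theorem range_eq {K L M : Type*} [Field K] [Field L] [Field M] [Algebra K L] [Algebra K M]
    [Normal K L] (ι₁ ι₂ : L →ₐ[K] M) : Set.range ι₁ = Set.range ι₂ := by
  refine Set.Subset.antisymm ?_ ?_ <;> rintro _ ⟨z, rfl⟩
  exacts [apply_mem_range ι₂ ι₁ z, apply_mem_range ι₁ ι₂ z]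

variable {d : ℤ}

/-- The generator of the maximal order is a multiplier in `ℚ(√d)` outside `ℤ`. -/
theorem exists_multiplier_mem (hd0 : d < 0) {L : PeriodPair} (h : IsMultiplierRing L (discK d)) :
    ∃ ω : ℂ, (∀ m : ℤ, ω ≠ m) ∧ (∀ l ∈ L.lattice, ω * l ∈ L.lattice) ∧
      ∃ x y : ℚ, (ω - (x : ℂ)) ^ 2 = (d : ℂ) * (y : ℂ) ^ 2 := by
  refine ⟨omega (discK d), fun m hm => ?_, (h _).2 ⟨0, 1, by simp⟩, ?_⟩
  · have := congrArg Complex.im hm
    rw [omega_im, Complex.intCast_im] at this
    have hD : (discK d : ℝ) < 0 := Int.cast_lt_zero.mpr (discK_neg hd0)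
    have := Real.sqrt_pos.mpr (neg_pos.mpr hD)
    linarith
  have hsq : ((Real.sqrt (-(d : ℝ)) : ℂ)) ^ 2 = -(d : ℂ) := by
    rw [← Complex.ofReal_pow, Real.sq_sqrt (neg_nonneg.mpr (Int.cast_nonpos.mpr hd0.le))]
    push_cast; ring
  rw [omega_discK d]
  split_ifs with h1
  · refine ⟨(d : ℚ) / 2, 1 / 2, ?_⟩
    push_cast
    linear_combination Complex.I ^ 2 / 4 * hsq + (-(d : ℂ) / 4) * Complex.I_sq
  · refine ⟨2 * (d : ℚ), 1, ?_⟩
    push_cast
    linear_combination Complex.I ^ 2 * hsq + (-(d : ℂ)) * Complex.I_sq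

/-- **A curve over `ℚ(j)` with the same multiplier ring**, and the degree of `j`. -/
theorem exists_curve_adjoin_j {F : IntermediateField ℚ Qb} (E : WeierstrassCurve F) [E.IsElliptic]
    (ψ : F →+* ℂ) {D : ℤ} (hD : D < 0) {L : PeriodPair} (h2 : L.g₂ = ψ E.c₄ / 12)
    (h3 : L.g₃ = ψ E.c₆ / 216) (hring : IsMultiplierRing L D) :
    finrank ℚ (IntermediateField.adjoin ℚ {(E.j : Qb)}) = (Red D).ncard ∧
    ∃ (E' : WeierstrassCurve (IntermediateField.adjoin ℚ {(E.j : Qb)})) (_ : E'.IsElliptic)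
      (ψ' : (IntermediateField.adjoin ℚ {(E.j : Qb)}) →+* ℂ) (L' : PeriodPair),
      L'.g₂ = ψ' E'.c₄ / 12 ∧ L'.g₃ = ψ' E'.c₆ / 216 ∧ IsMultiplierRing L' D := by
  obtain ⟨τ, c, hc, hlat, hj⟩ := exists_latPair_curve (E.map ψ) (L := L)
    (by rw [map_c₄]; exact h2) (by rw [map_c₆]; exact h3)
  rw [map_j] at hj
  have hτ := (isMultiplierRing_scale hlat D).1 hring
  have hv : ψ E.j ∈ values D := hj ▸ mem_values_of_ring hD hτ
  refine ⟨?_, ?_⟩
  · rw [IntermediateField.adjoin.finrank (Algebra.IsIntegral.isIntegral _),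
      show minpoly ℚ (E.j : Qb) = minpoly ℚ E.j from minpoly.algHom_eq F.val F.val.injective E.j,
      ← minpoly.algHom_eq ψ.toRatAlgHom ψ.injective E.j]
    exact FA.Singular.natDegree_minpoly hD hv
  set F' := IntermediateField.adjoin ℚ {(E.j : Qb)}
  have hle : F' ≤ F := IntermediateField.adjoin_simple_le_iff.mpr E.j.2
  set ψ' : F' →+* ℂ := ψ.comp (IntermediateField.inclusion hle).toRingHom with hψ'
  set x : F' := ⟨(E.j : Qb), IntermediateField.mem_adjoin_simple_self ℚ _⟩
  have hx : ψ' x = ψ E.j := rfl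
  obtain ⟨L', h2', h3'⟩ := FA.IsogenyNF.exists_lattice (WeierstrassCurve.ofJ x) ψ'
  obtain ⟨τ', c', hc', hlat', hj'⟩ := exists_latPair_curve ((WeierstrassCurve.ofJ x).map ψ')
    (L := L') (by rw [map_c₄]; exact h2') (by rw [map_c₆]; exact h3')
  rw [map_j, ofJ_j, hx, ← hj] at hj'
  obtain ⟨g, hg⟩ := (FA.JInj.jfun_eq_iff _ _).1 hj'
  refine ⟨WeierstrassCurve.ofJ x, inferInstance, ψ', L', h2', h3',
    (isMultiplierRing_scale hlat' D).2 fun w => ?_⟩
  rw [← hτ w, ← hg, FA.Singular.stable_smul]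

/-- The class number of `ℚ(√d)` counts the reduced forms. -/
theorem classNumber_adjoin (hd : Squarefree d) (hd0 : d < 0) {s : Qb} (hs : s ^ 2 = (d : Qb))
    [NumberField (IntermediateField.adjoin ℚ {s})] :
    classNumber (IntermediateField.adjoin ℚ {s}) = (Red (discK d)).ncard :=
  classNumber_eq_ncard_red (s := ⟨s, IntermediateField.mem_adjoin_simple_self ℚ s⟩)
    (FA.Jugendtraum.finrank_adjoin_sqrt hd0 hs) hd hd0 (Subtype.ext (by simpa using hs))

end FA.CMRayClass

end
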