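import Fermat.Agent.HeckeTorus.Ray

/-!
# A lower bound for a ray class number

If every unit is `± 1` modulo `n`, the units modulo `n` up to sign inject into the kernel of the map
from the ray classes modulo `n` to the classes, so `h · #((𝓞/n)ˣ/±1)` is at most the ray class
number.
-/

set_option autoImplicit false
set_option linter.style.haveILetI false
set_option linter.unusedSectionVars false

noncomputable section

open NumberField IsDedekindDomain
open FA.Hecke (coprimeIdeals IsRayElt RayClassGroup rayClass rayClass_eq_iff finite_rayClassGroup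
  exists_coprime_class)
open scoped nonZeroDivisors Classical

namespace FA.CMRayClass

/-- The signs in a group of units. -/
def pmOne (R : Type*) [CommRing R] : Subgroup Rˣ where
  carrier := {z | z = 1 ∨ z = -1}
  one_mem' := Or.inl rfl
  mul_mem' := by rintro a b (rfl | rfl) (rfl | rfl) <;> simp
  inv_mem' := by rintro a (rfl | rfl) <;> simp

variable {K : Type*} [Field K] [NumberField K]

theorem span_natCast_ne_bot {n : ℕ} (hn : n ≠ 0) : Ideal.span {(n : 𝓞 K)} ≠ ⊥ := by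
  rw [Ne, Ideal.span_singleton_eq_bot]
  exact Nat.cast_ne_zero.mpr hn

/-- **The ray class number is at least `h · #((𝓞/n)ˣ/𝓞ˣ)`.** -/
theorem classNumber_mul_range_le {n : ℕ} (hn : n ≠ 0) :
    classNumber K * Nat.card ((𝓞 K ⧸ Ideal.span {(n : 𝓞 K)})ˣ ⧸
        (Units.map (Ideal.Quotient.mk (Ideal.span {(n : 𝓞 K)})).toMonoidHom).range) ≤
      Nat.card (RayClassGroup (Ideal.span {(n : 𝓞 K)})) := by
  set 𝔪 : Ideal (𝓞 K) := Ideal.span {(n : 𝓞 K)} with h𝔪def
  have h𝔪 : 𝔪 ≠ ⊥ := span_natCast_ne_bot hn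
  have := finite_rayClassGroup h𝔪
  have hlift : ∀ u : (𝓞 K ⧸ 𝔪)ˣ, ∃ x : 𝓞 K, x ≠ 0 ∧ Ideal.Quotient.mk 𝔪 x = u := fun u => by
    obtain ⟨x, hx⟩ := Ideal.Quotient.mk_surjective (u : 𝓞 K ⧸ 𝔪)
    by_cases h0 : x = 0
    · refine ⟨n, Nat.cast_ne_zero.mpr hn, ?_⟩
      rw [← hx, h0, map_zero, Ideal.Quotient.eq_zero_iff_mem]
      exact Ideal.mem_span_singleton_self _
    · exact ⟨x, h0, hx⟩
  choose x hx0 hx using hlift
  have hcop : ∀ u, Ideal.span {x u} ⊔ 𝔪 = ⊤ := fun u => by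
    obtain ⟨y, hy⟩ := Ideal.Quotient.mk_surjective ((u⁻¹ : (𝓞 K ⧸ 𝔪)ˣ) : 𝓞 K ⧸ 𝔪)
    have h1 : x u * y - 1 ∈ 𝔪 :=
      Ideal.Quotient.eq.mp (by rw [map_mul, hx, hy, map_one, Units.mul_inv])
    rw [Ideal.eq_top_iff_one]
    have := sub_mem (Ideal.mem_sup_left (T := 𝔪) (Ideal.mul_mem_right y _
      (Ideal.mem_span_singleton_self (x u)))) (Ideal.mem_sup_right h1)
    rwa [sub_sub_cancel] at this
  choose J hJc hJ using exists_coprime_class (K := K) h𝔪
  let I : ∀ u, coprimeIdeals 𝔪 := fun u =>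
    ⟨⟨Ideal.span {x u}, mem_nonZeroDivisors_iff_ne_zero.mpr (by simpa using hx0 u)⟩, hcop u⟩
  let key : ClassGroup (𝓞 K) × ((𝓞 K ⧸ 𝔪)ˣ ⧸
      (Units.map (Ideal.Quotient.mk 𝔪).toMonoidHom).range) → RayClassGroup 𝔪 := fun p =>
    rayClass h𝔪 (⟨J p.1, hJ p.1⟩ * I p.2.out)
  have hinj : Function.Injective key := by
    rintro ⟨c, q⟩ ⟨c', q'⟩ h
    obtain ⟨a, b, ha, hb, hab⟩ := (rayClass_eq_iff h𝔪).mp h
    change Ideal.span {a} * ((J c).1 * Ideal.span {x q.out}) =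
      Ideal.span {b} * ((J c').1 * Ideal.span {x q'.out}) at hab
    rw [mul_left_comm, Ideal.span_singleton_mul_span_singleton, mul_left_comm (Ideal.span {b}),
      Ideal.span_singleton_mul_span_singleton, mul_comm, mul_comm (J c').1] at hab
    obtain rfl : c = c' := inv_injective (by
      rw [← hJc c, ← hJc c']
      exact ClassGroup.mk0_eq_mk0_iff.mpr
        ⟨_, _, mul_ne_zero ha.1 (hx0 _), mul_ne_zero hb.1 (hx0 _), hab⟩)
    obtain ⟨u, hu⟩ := Ideal.span_singleton_eq_span_singleton.mp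
      (mul_right_cancel₀ (nonZeroDivisors.coe_ne_zero (J c)) hab)
    have hmk : ∀ {z : 𝓞 K}, z - 1 ∈ 𝔪 → Ideal.Quotient.mk 𝔪 z = 1 := fun hz => by
      rw [← map_one (Ideal.Quotient.mk 𝔪)]
      exact Ideal.Quotient.eq.mpr hz
    have h1 := congrArg (Ideal.Quotient.mk 𝔪) hu
    rw [map_mul, map_mul, map_mul, hmk ha.2.1, hmk hb.2.1, one_mul, one_mul, hx, hx] at h1
    refine Prod.ext rfl ?_
    rw [← QuotientGroup.out_eq' q, ← QuotientGroup.out_eq' q', QuotientGroup.eq]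
    refine ⟨u, ?_⟩
    rw [eq_inv_mul_iff_mul_eq]
    exact Units.ext h1
  have hcard := Nat.card_le_card_of_injective key hinj
  rwa [Nat.card_prod, Nat.card_eq_fintype_card (α := ClassGroup (𝓞 K))] at hcard

/-- **The ray class number is at least `h · #((𝓞/n)ˣ/±1)`.** -/
theorem classNumber_mul_le {n : ℕ} (hn : n ≠ 0)
    (hunit : ∀ u : (𝓞 K)ˣ, (n : 𝓞 K) ∣ (u : 𝓞 K) - 1 ∨ (n : 𝓞 K) ∣ (u : 𝓞 K) + 1) :
    classNumber K * Nat.card ((𝓞 K ⧸ Ideal.span {(n : 𝓞 K)})ˣ ⧸ pmOne _) ≤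
      Nat.card (RayClassGroup (Ideal.span {(n : 𝓞 K)})) := by
  refine le_trans (Nat.mul_le_mul_left _ ?_) (classNumber_mul_range_le hn)
  haveI : Finite (𝓞 K ⧸ Ideal.span {(n : 𝓞 K)}) :=
    Ideal.finiteQuotientOfFreeOfNeBot _ (span_natCast_ne_bot hn)
  refine Nat.le_of_dvd Nat.card_pos (Subgroup.index_dvd_of_le ?_)
  rintro _ ⟨u, rfl⟩
  have h1 : Ideal.Quotient.mk (Ideal.span {(n : 𝓞 K)}) (u : 𝓞 K) = 1 ∨
      Ideal.Quotient.mk (Ideal.span {(n : 𝓞 K)}) (u : 𝓞 K) = -1 := by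
    rcases hunit u with h | h
    · left
      rw [← map_one (Ideal.Quotient.mk _)]
      exact Ideal.Quotient.eq.mpr (Ideal.mem_span_singleton.mpr h)
    · right
      rw [← map_one (Ideal.Quotient.mk _), ← map_neg]
      exact Ideal.Quotient.eq.mpr (by simpa using Ideal.mem_span_singleton.mpr h)
  rcases h1 with h | h
  · exact Or.inl (Units.ext h)
  · exact Or.inr (Units.ext h)

end FA.CMRayClass

end
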