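import Fermat.Agent.CMRayClass.Invariant
import Fermat.Agent.CMRayClass.Units
import Fermat.Agent.IsogenyNF.CMAbelian

/-!
# The Galois group of the field of torsion abscissae

With multiplication by the maximal order the points killed by `n` are free of rank one over
`𝓞/n`, so an automorphism fixing `F K` acts on them by a unit modulo `n`, and on their abscissae
through its class up to sign.
-/

set_option autoImplicit false
set_option linter.style.haveILetI false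
set_option linter.unusedSectionVars false

noncomputable section

open WeierstrassCurve NumberField Module FA.Mazur.Wp FA.IsogenyNF FA.CMFields
open FA.FieldClassBound (discK discK_neg omega_discK exists_emb exists_omega exists_omega_coord)
open FA.ClassNumberOne (xP)
open scoped WeierstrassCurve.Affine Classical

universe u v

namespace FA.CMRayClass

variable {F : Type u} [Field F] [CharZero F] {Kb : Type v} [Field Kb] [DecidableEq Kb]
  [Algebra F Kb] [CharZero Kb] [IsAlgClosed Kb] [Algebra.IsAlgebraic F Kb]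

/-- The points killed by `n` as a module over the multiplier. -/
theorem exists_action_short {W : WeierstrassCurve F} [W.IsElliptic] {φ : Kb →+* ℂ} {L : PeriodPair}
    (hL : (W.baseChange Kb).map φ = latCurve L) {ω : ℂ} (hω : ∀ m : ℤ, ω ≠ m)
    (hst : ∀ l ∈ L.lattice, ω * l ∈ L.lattice) (hprim : Primitive L ω) {n : ℕ} (hn : n ≠ 0) :
    ∃ (ω₀ : Kb) (θ : (W.toAffine⁄Kb).Point →+ (W.toAffine⁄Kb).Point) (t m : ℤ),
      φ ω₀ = ω ∧ (∀ P z, unif L z = toC W φ hL P → toC W φ hL (θ P) = unif L (ω * z)) ∧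
      ω ^ 2 - (t : ℂ) * ω + (m : ℂ) = 0 ∧
      (∀ σ : Kb ≃ₐ[F] Kb, σ ω₀ = ω₀ → ∀ P, θ (σ • P) = σ • θ P) ∧
      (∀ P : (W.toAffine⁄Kb).Point, n • P = 0 → θ (θ P) = t • θ P - m • P) ∧
      (∀ σ : Kb ≃ₐ[F] Kb, σ ω₀ = ω₀ → ∃ α k : ℤ,
        ∀ P : (W.toAffine⁄Kb).Point, n • P = 0 → σ • P = α • P + k • θ P) ∧
      ∀ c c' : ℤ, (∀ P : (W.toAffine⁄Kb).Point, n • P = 0 → c • P + c' • θ P = 0) →
        (n : ℤ) ∣ c ∧ (n : ℤ) ∣ c' := by
  obtain ⟨A, B, C, D, h1, h2, hB, hquad, -⟩ := exists_matrix hω hst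
  obtain ⟨r₁, r₂, r₃, hr⟩ := hprim.exists_bezout h1 h2
  obtain ⟨ω₀, θ, hω₀, heq, hθ⟩ := exists_endomorphism hL hω hst
  have hnC : (n : ℂ) ≠ 0 := Nat.cast_ne_zero.2 hn
  have hn0 : (n : ℤ) ≠ 0 := by exact_mod_cast hn
  have hex : ∀ o ∈ L.lattice, ∃ g : (W.toAffine⁄Kb).Point,
      toC W φ hL g = unif L (o / n) ∧ n • g = 0 := fun o ho =>
    exists_of_nsmul_eq_zero (hL := hL) hn (Q := unif L (o / n)) (by
      rw [← natCast_zsmul, ← unif_int_mul, Int.cast_natCast, mul_div_cancel₀ _ hnC,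
        unif_of_mem L ho])
  obtain ⟨g₁, hg₁, hk₁⟩ := hex _ L.ω₁_mem_lattice
  obtain ⟨g₂, hg₂, hk₂⟩ := hex _ L.ω₂_mem_lattice
  have hcomb : ∀ i j : ℤ, toC W φ hL (i • g₁ + j • g₂) =
      unif L ((i : ℂ) * (L.ω₁ / n) + (j : ℂ) * (L.ω₂ / n)) := fun i j => by
    rw [map_add, map_zsmul, map_zsmul, hg₁, hg₂, ← unif_int_mul, ← unif_int_mul, unif_add]
  have hspan : ∀ i j : ℤ, i • g₁ + j • g₂ = 0 ↔ (n : ℤ) ∣ i ∧ (n : ℤ) ∣ j := fun i j => by
    rw [← map_eq_zero_iff (toC W φ hL) (FA.Frob.mapHom_injective φ hL), hcomb, unif_eq_zero_iff,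
      show (i : ℂ) * (L.ω₁ / n) + (j : ℂ) * (L.ω₂ / n) = (((i : ℚ) / (n : ℤ) : ℚ) : ℂ) * L.ω₁ +
        (((j : ℚ) / (n : ℤ) : ℚ) : ℂ) * L.ω₂ by push_cast; ring,
      PeriodPair.mul_ω₁_add_mul_ω₂_mem_lattice,
      Rat.den_div_intCast_eq_one_iff i n hn0, Rat.den_div_intCast_eq_one_iff j n hn0]
  have hkill : ∀ Q : (W.toAffine⁄Kb).Point, n • Q = 0 → ∃ i j : ℤ, Q = i • g₁ + j • g₂ :=
    fun Q hQ => by
    obtain ⟨z, hz⟩ := exists_preimage (hL := hL) Q
    have hmem : (n : ℂ) * z ∈ L.lattice := by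
      rw [← unif_eq_zero_iff, ← Int.cast_natCast, unif_int_mul, hz, natCast_zsmul, ← map_nsmul, hQ,
        map_zero]
    obtain ⟨i, j, hij⟩ := PeriodPair.mem_lattice.1 hmem
    refine ⟨i, j, FA.Frob.mapHom_injective φ hL ?_⟩
    refine hz.symm.trans ((congrArg (unif L) ?_).trans (hcomb i j).symm)
    field_simp
    linear_combination -hij
  have hθ₁ : θ g₁ = A • g₁ + B • g₂ := by
    refine FA.Frob.mapHom_injective φ hL ?_
    refine ((hθ _ _ hg₁.symm).trans (congrArg (unif L) ?_)).trans (hcomb A B).symm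
    field_simp
    linear_combination h1
  have hθ₂ : θ g₂ = C • g₁ + D • g₂ := by
    refine FA.Frob.mapHom_injective φ hL ?_
    refine ((hθ _ _ hg₂.symm).trans (congrArg (unif L) ?_)).trans (hcomb C D).symm
    field_simp
    linear_combination h2
  refine ⟨ω₀, θ, A + D, A * D - B * C, hω₀, hθ, hquad, heq, fun P hP => ?_, fun σ hσ => ?_,
    fun c c' hc => ?_⟩
  · obtain ⟨i, j, rfl⟩ := hkill P hP
    simp only [map_add, map_zsmul, hθ₁, hθ₂]
    module
  · obtain ⟨a, b, hab⟩ := hkill (σ • g₁) (by rw [← smul_nsmul', hk₁, smul_zero])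
    obtain ⟨c, e, hce⟩ := hkill (σ • g₂) (by rw [← smul_nsmul', hk₂, smul_zero])
    obtain ⟨α, k, hα₁, hα₂⟩ := exists_comb (f := DistribSMul.toAddMonoidHom _ σ) hspan hθ₁ hθ₂
      hab hce (heq σ hσ g₁).symm (heq σ hσ g₂).symm hr
    refine ⟨α, k, fun Q hQ => ?_⟩
    obtain ⟨i, j, rfl⟩ := hkill Q hQ
    have e₁ : σ • g₁ = α • g₁ + k • θ g₁ := hα₁
    have e₂ : σ • g₂ = α • g₂ + k • θ g₂ := hα₂
    rw [smul_add, smul_zsmul', smul_zsmul', e₁, e₂, map_add, map_zsmul, map_zsmul]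
    module
  · obtain ⟨⟨u₁, hu₁⟩, u₂, hu₂⟩ := (hspan (c + c' * A) (c' * B)).1 (by
      rw [← hc g₁ hk₁, hθ₁]; module)
    obtain ⟨⟨u₃, hu₃⟩, u₄, hu₄⟩ := (hspan (c' * C) (c + c' * D)).1 (by
      rw [← hc g₂ hk₂, hθ₂]; module)
    have hc' : c' = (n : ℤ) * (r₁ * u₂ + r₂ * u₃ + r₃ * (u₁ - u₄)) := by
      linear_combination -c' * hr + r₁ * hu₂ + r₂ * hu₃ + r₃ * hu₁ - r₃ * hu₄
    exact ⟨⟨u₁ - (r₁ * u₂ + r₂ * u₃ + r₃ * (u₁ - u₄)) * A, by linear_combination hu₁ - A * hc'⟩,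
      ⟨_, hc'⟩⟩

variable {d : ℤ}

/-- The generator of the maximal order is primitive. -/
theorem primitive_omega (hd0 : d < 0) {L : PeriodPair} (h : IsMultiplierRing L (discK d)) :
    Primitive L (omega (discK d)) := fun p a hp hst => by
  obtain ⟨x, y, e⟩ := (h _).1 hst
  have hp0 : (p : ℂ) ≠ 0 := Nat.cast_ne_zero.2 hp.ne_zero
  rw [div_eq_iff hp0] at e
  have hi := congrArg Complex.im e
  simp [omega_im] at hi
  have hpos : 0 < Real.sqrt (-(discK d : ℝ)) :=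
    Real.sqrt_pos.mpr (neg_pos.mpr (Int.cast_lt_zero.mpr (discK_neg hd0)))
  have h1 : ((y * p : ℤ) : ℝ) = ((1 : ℤ) : ℝ) := by
    push_cast
    apply mul_left_cancel₀ (div_pos hpos two_pos).ne'
    linear_combination -hi
  have h2 : (p : ℤ) ∣ 1 := ⟨y, by rw [mul_comm]; exact_mod_cast h1.symm⟩
  exact hp.one_lt.ne' (Nat.dvd_one.1 (Int.natCast_dvd_natCast.1 (by simpa using h2)))

/-- An automorphism fixing `√d` fixes the multiplier. -/
theorem fix_omega (hd0 : d < 0) {φ : Kb →+* ℂ} {s ω₀ : Kb} (hs : s ^ 2 = (d : Kb))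
    (hω₀ : φ ω₀ = omega (discK d)) {σ : Kb ≃ₐ[F] Kb} (hσ : σ s = s) : σ ω₀ = ω₀ := by
  have hφs : φ s = Complex.I * (Real.sqrt (-(d : ℝ)) : ℂ) ∨
      φ s = -(Complex.I * (Real.sqrt (-(d : ℝ)) : ℂ)) := by
    refine sq_eq_sq_iff_eq_or_eq_neg.1 ?_
    rw [← map_pow, hs, map_intCast, mul_pow, Complex.I_sq, ← Complex.ofReal_pow,
      Real.sq_sqrt (neg_nonneg.mpr (Int.cast_nonpos.mpr hd0.le))]
    push_cast; ring
  obtain ⟨x, y, hxy⟩ : ∃ x y : ℚ,
      omega (discK d) = (x : ℂ) + (y : ℂ) * (Complex.I * (Real.sqrt (-(d : ℝ)) : ℂ)) := by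
    rw [omega_discK d]
    split_ifs
    · exact ⟨(d : ℚ) / 2, 1 / 2, by push_cast; ring⟩
    · exact ⟨2 * (d : ℚ), 1, by push_cast; ring⟩
  rw [← hω₀] at hxy
  rcases hφs with h | h
  · have : ω₀ = (x : Kb) + (y : Kb) * s := φ.injective (by
      show φ ω₀ = φ ((x : Kb) + (y : Kb) * s)
      rw [hxy, map_add, map_mul, map_ratCast, map_ratCast, h])
    rw [this, map_add, map_mul, map_ratCast, map_ratCast, hσ]
  · have : ω₀ = (x : Kb) - (y : Kb) * s := φ.injective (by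
      show φ ω₀ = φ ((x : Kb) - (y : Kb) * s)
      rw [hxy, map_sub, map_mul, map_ratCast, map_ratCast, h]
      ring)
    rw [this, map_sub, map_mul, map_ratCast, map_ratCast, hσ]

/-- **The points killed by `n` as a module over the maximal order.** -/
theorem exists_action (E : WeierstrassCurve F) [E.IsElliptic] (ψ : F →+* ℂ) (hd0 : d < 0)
    {L : PeriodPair} (hg2 : L.g₂ = ψ E.c₄ / 12) (hg3 : L.g₃ = ψ E.c₆ / 216)
    (hring : IsMultiplierRing L (discK d)) {s : Kb} (hs : s ^ 2 = (d : Kb)) {n : ℕ} (hn : n ≠ 0) :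
    ∃ (θ : (E.toAffine⁄Kb).Point →+ (E.toAffine⁄Kb).Point) (t m : ℤ),
      omega (discK d) ^ 2 - (t : ℂ) * omega (discK d) + (m : ℂ) = 0 ∧
      (∀ P : (E.toAffine⁄Kb).Point, n • P = 0 → θ (θ P) = t • θ P - m • P) ∧
      (∀ σ : Kb ≃ₐ[F] Kb, σ s = s → (∀ P, θ (σ • P) = σ • θ P) ∧ ∃ α k : ℤ,
        ∀ P : (E.toAffine⁄Kb).Point, n • P = 0 → σ • P = α • P + k • θ P) ∧
      ∀ c c' : ℤ, (∀ P : (E.toAffine⁄Kb).Point, n • P = 0 → c • P + c' • θ P = 0) →
        (n : ℤ) ∣ c ∧ (n : ℤ) ∣ c' := by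
  letI := ψ.toAlgebra
  let φ : Kb →ₐ[F] ℂ := IsAlgClosed.lift
  have hψ : ∀ c : F, φ (algebraMap F Kb c) = ψ c := φ.commutes
  obtain ⟨Cv, hC⟩ := exists_variableChange E
  haveI : (shortModel E).IsElliptic := hC ▸ inferInstance
  have hC' : Cv.map (algebraMap F Kb) • E.baseChange Kb = (shortModel E).baseChange Kb := by
    simp only [WeierstrassCurve.baseChange, map_variableChange, hC]
  have hL : ((shortModel E).baseChange Kb).map (φ : Kb →+* ℂ) = latCurve L := by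
    ext <;> simp [WeierstrassCurve.baseChange, shortModel, latCurve, hg2, hg3, hψ, map_ofNat] <;>
      ring
  set e := FA.Frob.vcEquiv _ hC' with he_def
  have he : ∀ σ : Kb ≃ₐ[F] Kb, ∀ P, e (σ • P) = σ • e P := fun σ P => vcEquiv_smul hC' σ P
  have he' : ∀ σ : Kb ≃ₐ[F] Kb, ∀ P, e.symm (σ • P) = σ • e.symm P := fun σ P => by
    apply e.injective
    rw [he, e.apply_symm_apply, e.apply_symm_apply]
  have hω : ∀ k : ℤ, omega (discK d) ≠ k := fun k hk => by
    have := congrArg Complex.im hk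
    rw [omega_im, Complex.intCast_im] at this
    have := Real.sqrt_pos.mpr (neg_pos.mpr (Int.cast_lt_zero (R := ℝ) |>.mpr (discK_neg hd0)))
    linarith
  obtain ⟨ω₀, θ, t, m, hω₀, -, hquad, hcomm, hθθ, hact, hfaith⟩ :=
    exists_action_short hL hω ((hring _).2 ⟨0, 1, by simp⟩) (primitive_omega hd0 hring) hn
  have hfix : ∀ σ : Kb ≃ₐ[F] Kb, σ s = s → σ ω₀ = ω₀ := fun σ => fix_omega hd0 hs hω₀
  refine ⟨(e.toAddMonoidHom.comp θ).comp e.symm.toAddMonoidHom, t, m, hquad, fun P hP => ?_,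
    fun σ hσ => ⟨fun P => ?_, ?_⟩, fun c c' hc => hfaith c c' fun P hP => e.injective ?_⟩
  · show e (θ (e.symm (e (θ (e.symm P))))) = t • e (θ (e.symm P)) - m • P
    rw [e.symm_apply_apply, hθθ _ (by rw [← map_nsmul, hP, map_zero]), map_sub, map_zsmul,
      map_zsmul, e.apply_symm_apply]
  · show e (θ (e.symm (σ • P))) = σ • e (θ (e.symm P))
    rw [he', hcomm σ (hfix σ hσ), he]
  · obtain ⟨α, k, hαk⟩ := hact σ (hfix σ hσ)
    refine ⟨α, k, fun P hP => e.symm.injective ?_⟩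
    show e.symm (σ • P) = e.symm (α • P + k • e (θ (e.symm P)))
    rw [he', hαk _ (by rw [← map_nsmul, hP, map_zero]), map_add, map_zsmul, map_zsmul,
      e.symm_apply_apply]
  · have h := hc (e P) (by rw [← map_nsmul, hP, map_zero])
    change c • e P + c' • e (θ (e.symm (e P))) = 0 at h
    rw [e.symm_apply_apply] at h
    rwa [map_add, map_zsmul, map_zsmul, map_zero]

local notation "Qb" => AlgebraicClosure ℚ
local notation "𝕆[" s "]" => 𝓞 (IntermediateField.adjoin ℚ ({s} : Set (AlgebraicClosure ℚ)))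

/-- **The degree of a field of invariants of the points killed by `n`.** -/
theorem finrank_adjoin_invariant_le (F : IntermediateField ℚ (AlgebraicClosure ℚ))
    [FiniteDimensional ℚ F] (W : WeierstrassCurve F) [W.IsElliptic] (hd : Squarefree d)
    (hd0 : d < 0) {s : AlgebraicClosure ℚ} (hs : s ^ 2 = (d : AlgebraicClosure ℚ))
    [NumberField (IntermediateField.adjoin ℚ {s})] {n : ℕ} (hn : n ≠ 0)
    (θ : (W.toAffine⁄Qb).Point →+ (W.toAffine⁄Qb).Point) {t m : ℤ}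
    (hquad : omega (discK d) ^ 2 - (t : ℂ) * omega (discK d) + (m : ℂ) = 0)
    (hθθ : ∀ P : (W.toAffine⁄Qb).Point, n • P = 0 → θ (θ P) = t • θ P - m • P)
    (hact : ∀ σ : Qb ≃ₐ[F] Qb, σ s = s → (∀ P, θ (σ • P) = σ • θ P) ∧ ∃ α k : ℤ,
      ∀ P : (W.toAffine⁄Qb).Point, n • P = 0 → σ • P = α • P + k • θ P)
    (hfaith : ∀ c c' : ℤ, (∀ P : (W.toAffine⁄Qb).Point, n • P = 0 → c • P + c' • θ P = 0) →
      (n : ℤ) ∣ c ∧ (n : ℤ) ∣ c')
    {h : (W.toAffine⁄Qb).Point → Qb} (hh : ∀ (σ : Qb ≃ₐ[F] Qb) P, h (σ • P) = σ (h P))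
    {e : IntermediateField.adjoin ℚ {s} →+* ℂ}
    (he : e ⟨s, IntermediateField.mem_adjoin_simple_self ℚ s⟩ =
      Complex.I * (Real.sqrt (-(d : ℝ)) : ℂ))
    {w : 𝕆[s]} (hw : e (w : IntermediateField.adjoin ℚ {s}) = omega (discK d))
    (H : Subgroup (𝕆[s] ⧸ Ideal.span {(n : 𝕆[s])})ˣ)
    (hH : ∀ c ∈ H, ∃ a b : ℤ,
      Ideal.Quotient.mk (Ideal.span {(n : 𝕆[s])}) ((a : 𝕆[s]) + (b : 𝕆[s]) * w) = c ∧
        ∀ P : (W.toAffine⁄Qb).Point, n • P = 0 → h (a • P + b • θ P) = h P) :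
    finrank ℚ (IntermediateField.adjoin ℚ ((F : Set Qb) ∪ {s} ∪
        h '' {P : (W.toAffine⁄Qb).Point | n • P = 0})) ≤
      finrank ℚ (F ⊔ IntermediateField.adjoin ℚ {s} : IntermediateField ℚ Qb) *
        Nat.card ((𝕆[s] ⧸ Ideal.span {(n : 𝕆[s])})ˣ ⧸ H) := by
  haveI : IsGalois ℚ Qb := FA.EC.isGalois_algebraicClosure
  haveI : Algebra.IsAlgebraic F Qb := Algebra.IsAlgebraic.tower_top (K := ℚ) F
  set G : IntermediateField ℚ Qb := F ⊔ IntermediateField.adjoin ℚ {s} with hG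
  haveI : Algebra.IsAlgebraic G Qb := Algebra.IsAlgebraic.tower_top (K := ℚ) G
  haveI : FiniteDimensional ℚ G := IntermediateField.finiteDimensional_sup _ _
  set X : Set Qb := h '' {P : (W.toAffine⁄Qb).Point | n • P = 0} with hX
  haveI : Finite X := ((finite_nsmul_eq_zero (W := W) hn).image _).to_subtype
  set M' : IntermediateField G Qb := IntermediateField.adjoin G X with hM'
  haveI : FiniteDimensional G M' :=
    IntermediateField.finiteDimensional_adjoin fun z _ => Algebra.IsIntegral.isIntegral z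
  have hrs : IntermediateField.adjoin ℚ ((F : Set Qb) ∪ {s} ∪ X) = M'.restrictScalars ℚ := by
    rw [show M'.restrictScalars ℚ = IntermediateField.adjoin ℚ ((G : Set Qb) ∪ X) from
      IntermediateField.restrictScalars_adjoin ℚ G X]
    refine le_antisymm (IntermediateField.adjoin.mono ℚ _ _ (Set.union_subset_union_left _ ?_))
      (IntermediateField.adjoin_le_iff.mpr (Set.union_subset ?_ ?_))
    · exact Set.union_subset (le_sup_left : F ≤ G)
        (Set.singleton_subset_iff.mpr ((le_sup_right : IntermediateField.adjoin ℚ {s} ≤ G)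
          (IntermediateField.mem_adjoin_simple_self ℚ s)))
    · refine SetLike.coe_subset_coe.mpr (sup_le
        (fun z hz => IntermediateField.subset_adjoin ℚ _ (Or.inl (Or.inl hz)))
        (IntermediateField.adjoin_simple_le_iff.mpr
          (IntermediateField.subset_adjoin ℚ _ (Or.inl (Or.inr (Set.mem_singleton s))))))
    · exact fun z hz => IntermediateField.subset_adjoin ℚ _ (Or.inr hz)
  rw [hrs, show finrank ℚ (M'.restrictScalars ℚ) = finrank ℚ M' from rfl,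
    ← finrank_mul_finrank ℚ G M', ← AlgHom.card G M' Qb, ← Nat.card_eq_fintype_card]
  refine Nat.mul_le_mul_left _ ?_
  -- extend the embeddings
  set sK : IntermediateField.adjoin ℚ {s} :=
    ⟨s, IntermediateField.mem_adjoin_simple_self ℚ s⟩ with hsKdef
  have hsK : sK ^ 2 = (d : IntermediateField.adjoin ℚ {s}) := Subtype.ext (by simpa [sK] using hs)
  have hK := FA.Jugendtraum.finrank_adjoin_sqrt hd0 hs
  have hext : ∀ f : M' →ₐ[G] Qb, ∃ (σ : Qb ≃ₐ[F] Qb) (α k : ℤ),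
      σ s = s ∧ (∀ z : M', σ (z : Qb) = f z) ∧
        (∀ P : (W.toAffine⁄Qb).Point, n • P = 0 → σ • P = α • P + k • θ P) ∧
        IsUnit (Ideal.Quotient.mk (Ideal.span {(n : 𝕆[s])})
          ((α : 𝕆[s]) + (k : 𝕆[s]) * w)) := fun f => by
    haveI : Normal G Qb := Normal.tower_top_of_normal ℚ G Qb
    let g : Qb ≃ₐ[G] Qb :=
      AlgEquiv.ofBijective (f.liftNormal Qb) (AlgHom.normal_bijective G Qb Qb _)
    let σ : Qb ≃ₐ[F] Qb := AlgEquiv.ofRingEquiv (f := g.toRingEquiv) fun y =>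
      g.commutes ⟨y, (le_sup_left : F ≤ G) y.2⟩
    have hσs : σ s = s := g.commutes ⟨s, (le_sup_right : IntermediateField.adjoin ℚ {s} ≤ G)
      (IntermediateField.mem_adjoin_simple_self ℚ s)⟩
    have hσs' : σ⁻¹ s = s := by
      conv_lhs => rw [← hσs]
      exact σ.symm_apply_apply s
    obtain ⟨hcomm, α, k, hαk⟩ := hact σ hσs
    obtain ⟨-, α', k', hαk'⟩ := hact σ⁻¹ hσs'
    refine ⟨σ, α, k, hσs, fun z => f.liftNormal_commutes Qb z, hαk,
      IsUnit.of_mul_eq_one (Ideal.Quotient.mk (Ideal.span {(n : 𝕆[s])})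
        ((α' : 𝕆[s]) + (k' : 𝕆[s]) * w)) ?_⟩
    obtain ⟨⟨u, hu⟩, v, hv⟩ := hfaith (α * α' - m * (k * k') - 1)
      (α * k' + α' * k + t * (k * k')) fun P hP => by
      have hθP : n • θ P = 0 := by rw [← map_nsmul, hP, map_zero]
      have h' := hαk' (σ • P) (by rw [← smul_nsmul', hP, smul_zero])
      rw [inv_smul_smul, hcomm, hαk P hP, hαk _ hθP, hθθ P hP] at h'
      rw [← sub_eq_zero] at h'
      rw [← neg_eq_zero, ← h']
      module
    have hw2 : w * w = (t : 𝕆[s]) * w - (m : 𝕆[s]) := RingOfIntegers.coe_injective (e.injective (by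
      simp only [map_mul, map_sub, map_intCast, hw]
      linear_combination hquad))
    rw [← map_mul, ← map_one (Ideal.Quotient.mk (Ideal.span {(n : 𝕆[s])})),
      Ideal.Quotient.eq, Ideal.mem_span_singleton]
    refine ⟨(u : 𝕆[s]) + (v : 𝕆[s]) * w, ?_⟩
    have hu' := congrArg (Int.cast (R := 𝕆[s])) hu
    have hv' := congrArg (Int.cast (R := 𝕆[s])) hv
    push_cast at hu' hv'
    linear_combination hu' + w * hv' + (k : 𝕆[s]) * (k' : 𝕆[s]) * hw2
  choose σ α k hσs hσz hσP hunit using hext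
  haveI : Finite (𝕆[s] ⧸ (Ideal.span {(n : 𝕆[s])})) :=
    Ideal.finiteQuotientOfFreeOfNeBot (Ideal.span {(n : 𝕆[s])}) (span_natCast_ne_bot hn)
  refine Nat.card_le_card_of_injective
    (fun f => (QuotientGroup.mk (hunit f).unit : _ ⧸ H))
    fun f f' hff => ?_
  obtain ⟨a, b, hab, hinv⟩ := hH _ (QuotientGroup.eq.mp hff)
  have hmem : ((α f' : 𝕆[s]) + (k f' : 𝕆[s]) * w) -
      ((a : 𝕆[s]) + (b : 𝕆[s]) * w) * ((α f : 𝕆[s]) + (k f : 𝕆[s]) * w) ∈
        Ideal.span {(n : 𝕆[s])} := by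
    rw [← Ideal.Quotient.eq, map_mul, hab]
    calc _ = ((hunit f').unit : (𝕆[s] ⧸ Ideal.span {(n : 𝕆[s])})) := (hunit f').unit_spec.symm
      _ = (((hunit f).unit⁻¹ * (hunit f').unit * (hunit f).unit : _ˣ) : _) := by
          rw [mul_comm (_⁻¹ * _), mul_inv_cancel_left]
      _ = _ := by rw [Units.val_mul, (hunit f).unit_spec]
  obtain ⟨z, hz⟩ := Ideal.mem_span_singleton.mp hmem
  obtain ⟨x₀, y₀, hxy⟩ := exists_omega_coord hK hd hd0 hsK he z
  have hz' := congrArg (fun r : 𝕆[s] => e (r : _)) hz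
  simp only [map_add, map_sub, map_mul, map_intCast, map_natCast, hw, hxy] at hz'
  have hquad' : omega (discK d) * omega (discK d) =
      (t : ℂ) * omega (discK d) - (m : ℂ) := by linear_combination hquad
  have hz'' : (((α f' - a * α f + b * k f * m : ℤ)) : ℂ) +
      (((k f' - a * k f - b * α f - b * k f * t : ℤ)) : ℂ) * omega (discK d) =
      (((n : ℤ) * x₀ : ℤ) : ℂ) + (((n : ℤ) * y₀ : ℤ) : ℂ) * omega (discK d) := by
    push_cast
    linear_combination hz' + (b : ℂ) * (k f : ℂ) * hquad'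
  have hpos : 0 < (omega (discK d)).im := by
    rw [omega_im]
    exact div_pos (Real.sqrt_pos.mpr (neg_pos.mpr (Int.cast_lt_zero.mpr (discK_neg hd0)))) two_pos
  obtain ⟨hα, hk⟩ : α f' - a * α f + b * k f * m = (n : ℤ) * x₀ ∧
      k f' - a * k f - b * α f - b * k f * t = (n : ℤ) * y₀ := by
    generalize α f' - a * α f + b * k f * m = X₁ at hz'' ⊢
    generalize k f' - a * k f - b * α f - b * k f * t = Y₁ at hz'' ⊢
    generalize (n : ℤ) * x₀ = X₂ at hz'' ⊢
    generalize (n : ℤ) * y₀ = Y₂ at hz'' ⊢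
    have hY : Y₁ = Y₂ := by
      have := congrArg Complex.im hz''
      simp at this
      rcases this with h' | h'
      · exact h'
      · exact absurd h' hpos.ne'
    subst hY
    exact ⟨by simpa using hz'', rfl⟩
  have hpt : ∀ P : (W.toAffine⁄Qb).Point, n • P = 0 →
      σ f' • P = a • (σ f • P) + b • θ (σ f • P) := fun P hP => by
    have h1 : ((n : ℤ) * x₀) • P = 0 := by
      rw [mul_comm, mul_zsmul', natCast_zsmul, smul_comm, hP, zsmul_zero]
    have h2 : ((n : ℤ) * y₀) • θ P = 0 := by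
      rw [mul_comm, mul_zsmul', natCast_zsmul, smul_comm, ← map_nsmul, hP, map_zero, zsmul_zero]
    rw [hσP f' P hP, hσP f P hP, map_add, map_zsmul, map_zsmul, hθθ P hP,
      show α f' = a * α f - b * k f * m + (n : ℤ) * x₀ by linarith,
      show k f' = a * k f + b * α f + b * k f * t + (n : ℤ) * y₀ by linarith,
      add_zsmul, add_zsmul, h1, h2]
    module
  refine IntermediateField.algHom_ext_of_eq_adjoin _ rfl fun y hy => ?_
  obtain ⟨P, hP, rfl⟩ := hy
  rw [← hσz f, ← hσz f', ← hh, ← hh, hpt P hP]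
  exact (hinv _ (by rw [← smul_nsmul', hP, smul_zero])).symm

/-- **The degree of the field of the abscissae of level `n`.** -/
theorem finrank_adjoin_torsion_le (F : IntermediateField ℚ (AlgebraicClosure ℚ))
    [FiniteDimensional ℚ F] (E : WeierstrassCurve F) [E.IsElliptic] (ψ : F →+* ℂ)
    (hd : Squarefree d) (hd0 : d < 0) {L : PeriodPair} (hg2 : L.g₂ = ψ E.c₄ / 12)
    (hg3 : L.g₃ = ψ E.c₆ / 216) (hring : IsMultiplierRing L (discK d)) {s : AlgebraicClosure ℚ}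
    (hs : s ^ 2 = (d : AlgebraicClosure ℚ)) [NumberField (IntermediateField.adjoin ℚ {s})]
    {n : ℕ} (hn : n ≠ 0) :
    finrank ℚ (IntermediateField.adjoin ℚ ((F : Set Qb) ∪ {s} ∪
        xP '' {P : (E.toAffine⁄Qb).Point | n • P = 0})) ≤
      finrank ℚ (F ⊔ IntermediateField.adjoin ℚ {s} : IntermediateField ℚ Qb) *
        Nat.card ((𝓞 (IntermediateField.adjoin ℚ {s}) ⧸
          Ideal.span {(n : 𝓞 (IntermediateField.adjoin ℚ {s}))})ˣ ⧸ pmOne _) := by
  obtain ⟨θ, t, m, hquad, hθθ, hact, hfaith⟩ := exists_action E ψ hd0 hg2 hg3 hring hs hn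
  have hsK : (⟨s, IntermediateField.mem_adjoin_simple_self ℚ s⟩ :
      IntermediateField.adjoin ℚ {s}) ^ 2 = (d : IntermediateField.adjoin ℚ {s}) :=
    Subtype.ext (by simpa using hs)
  obtain ⟨e, he⟩ := exists_emb hd0 hsK
  obtain ⟨w, hw⟩ := exists_omega hsK he
  refine finrank_adjoin_invariant_le F E hd hd0 hs hn θ hquad hθθ hact hfaith
    (fun σ P => FA.IsogenyNF.xP_smul (σ := σ) P) he hw _ fun c hc => ?_
  rcases hc with rfl | rfl
  · exact ⟨1, 0, by simp, fun P _ => by simp⟩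
  · refine ⟨-1, 0, by simp, fun P _ => ?_⟩
    rw [zero_zsmul, add_zero, neg_one_zsmul]
    rcases P with _ | ⟨u, v, h'⟩ <;> rfl

end FA.CMRayClass

end
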